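-- Statement S05: the mod-p Galois representation of the Frey curve is unramified at every
-- prime q with q ≠ 2 and q ≠ p.  Proof: team T05 (elementary route: variable change to the model
-- y² = x³ + αx² + π^p x, kernel of reduction, component analysis, inertia endgame).
import Fermat.Statements.S05
import Fermat.Agent.S05.NodeShape

set_option autoImplicit false
open WeierstrassCurve WeierstrassCurve.Affine WeierstrassCurve.Affine.Point
open CuspForm ModularFormClass UpperHalfPlane
open FreyPackage

namespace Fermat.Agent.S05

theorem result (P : FreyPackage) {q : ℕ} (hq : q.Prime) (hq2 : q ≠ 2) (hqp : q ≠ P.p) : P.GaloisRepUnramifiedAt q :=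
  Fermat.Agent.S05.EndgameFinal.frey_unramified P hq hq2 hqp

end Fermat.Agent.S05
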