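-- Statement S13: a reducible mod-p representation of the Frey curve has a Galois-stable cofixed
-- line.  Proof: team T13 (lead helper13; elementary route): division polynomials (E[p] has p²
-- points; KEY: p•P = 0 ↔ preΨ_p(x_P) = 0), unipotent inertia at 2 and no rational p-torsion
-- (component group at 2), trichotomy at p, S05 away from 2p, a normal open subgroup of G_ℚ
-- containing an inertia group over every prime is everything (Minkowski), assembly.
import Fermat.Statements.S13
import Fermat.Agent.S13.FinalOf
import Fermat.Agent.S13.AtTwoFixed
import Fermat.Agent.S13.Global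
import Fermat.Agent.S13.AtP

set_option autoImplicit false
open WeierstrassCurve WeierstrassCurve.Affine WeierstrassCurve.Affine.Point
open CuspForm ModularFormClass UpperHalfPlane
open FreyPackage

namespace Fermat.Agent.S13

theorem result (P : FreyPackage) (hred : ¬ GaloisRepIsIrreducible (K := AlgebraicClosure ℚ) ℚ P.freyCurve P.p) : HasGaloisStableCofixedLine (K := AlgebraicClosure ℚ) ℚ P.freyCurve P.p := by
  have hp2 : P.p ≠ 2 := by have := P.hp5; omega
  have hkey : ∀ W : Affine (AlgebraicClosure ℚ), W.Δ ≠ 0 → AtP.HDP W P.p := fun W hΔ =>
    DPmain.Key.hDP W (Div.key_main W hΔ P.pp hp2)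
  exact FinalOf.result_of P (fun x hx => AtTwo.frey_no_fixed_point P x hx)
    (fun hcard => AtP.frey_at_p_exists_of_key P hkey hcard)
    (fun H hn ho hI => Global.eq_top_of_inertia_le H hn ho hI) hred

end Fermat.Agent.S13
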