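-- Statement S22: the Hecke algebra of cusp forms is a finitely generated ℤ-module.
-- Proof: Eichler–Shimura injectivity (period polynomials of Eichler integrals) gives a finitely
-- generated, Hecke-stable, separating lattice of linear functionals on the space of cusp forms.
import Fermat.Statements.S22
import Fermat.Agent.S22_helper97.Hecke

set_option autoImplicit false
open CuspForm

namespace Fermat.Agent.S22

theorem result (N : ℕ) [NeZero N] (k : ℤ) (S : Set ℕ) :
    Module.Finite ℤ (CuspForm.heckeAlgebra N k S) := by
  rcases lt_or_ge k 2 with hk | hk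
  · exact Fermat.Agent.S22_helper22.finite_heckeAlgebra_of_lt_two N hk S
  · obtain ⟨m, rfl⟩ : ∃ m : ℕ, k = (1 : ℤ) + m := ⟨(k - 1).toNat, by omega⟩
    exact Fermat.Agent.S22_helper97.finite_heckeAlgebra_of_one_le N m (by omega) S

end Fermat.Agent.S22
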