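-- Statement S20: dim S₂(Γ₀(N)) = genusFormula N.
-- Upper bound: Eichler–Shimura squeeze (T21: injectivity of the period map + Shapiro bound on
-- parabolic cohomology); lower bound: free module theorem route (T20 FM-route).
import Fermat.Statements.S20
import Fermat.Agent.S21_helper86.Final
import Fermat.Agent.S20FM.Final

set_option autoImplicit false
open CuspForm

namespace Fermat.Agent.S20

theorem result (N : ℕ) [NeZero N] :
    (Module.finrank ℂ (CuspForm (CongruenceSubgroup.Gamma0 N) 2) : ℚ) = ModularCurve.genusFormula N :=
  (Fermat.Agent.S21_helper86.S20_and_S21_of_lower_bound N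
    (Fermat.Agent.S20FM.genusFormula_le_finrank_cuspForm N)).1

end Fermat.Agent.S20
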