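-- Statement S21: Eichler–Shimura, the pair period map is injective with image the parabolic
-- characters.  Injectivity + upper bound on parabolic cohomology (T21) and the dimension lower
-- bound (T20 FM-route) squeeze the range.
import Fermat.Statements.S21
import Fermat.Agent.S21_helper86.Final
import Fermat.Agent.S20FM.Final

set_option autoImplicit false
open ModularCurve

namespace Fermat.Agent.S21

theorem result (N : ℕ) [NeZero N] :
    Function.Injective (ModularCurve.periodHomPair N)
      ∧ LinearMap.range (ModularCurve.periodHomPair N)
          = ModularCurve.Period.parabolicHoms ℂ (CongruenceSubgroup.Gamma0 N) ℂ :=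
  (Fermat.Agent.S21_helper86.S20_and_S21_of_lower_bound N
    (Fermat.Agent.S20FM.genusFormula_le_finrank_cuspForm N)).2

end Fermat.Agent.S21
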