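-- Statement S29 (row 28): a normalised weight-2 eigenform on Γ₀(N) has, for every prime p and
-- every residue map ℤ̄ → k (char p), an attached mod-p Galois representation, unramified at all
-- primes not dividing Np.
-- GATE-J assembly (Kummer model of J₀(N)[p]):  J1 (K18s: kernel of reduction is torsion-free, in
-- Kummer form) + J2 (EIG: Kummer–Eisenstein construction of the p-torsion and its Hecke
-- eigenvectors) + J3 (ES: Eichler–Shimura relation on Kummer classes) + J4 (Frobenius generation,
-- quadratic-relation algebra, assembly).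
import Fermat.Statements.S29
import Fermat.Agent.GJ.J4.K18sAllFinal

set_option autoImplicit false
open CuspForm CuspForm.IsNormalizedEigenform

namespace Fermat.Agent.S29

theorem result
    {N : ℕ} {g : CuspForm (CongruenceSubgroup.Gamma0 N) 2} (hg : g.IsNormalizedEigenform)
    {p : ℕ} (hp : p.Prime) {k : Type} [Field k] [CharP k p]
    (φ : integralClosure ℤ ℂ →+* k) :
    ∃ ρ : ResidualGaloisRep k, ρ.IsAttachedTo g φ ∧
      ∀ ℓ : ℕ, ℓ.Prime → ¬ ℓ ∣ N * p → ρ.IsUnramifiedAt ℓ :=
  Fermat.Agent.GJ.KumFinal.s29_final hg hp φ

end Fermat.Agent.S29
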