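-- Statement S23 (row 22): `CuspForm.HasIntegralStructure N 2`.
-- Proof: finiteness of the Hecke algebra over `ℤ` (S22) + the cusp forms with rational
-- `q`-expansion span `S₂(Γ₀(N))` (T23 project, `Fermat/Agent/S23/*.lean`).
import Fermat.Statements.S23
import Fermat.Agent.S22
import Fermat.Agent.S23.Wiring

set_option autoImplicit false
open CuspForm

namespace Fermat.Agent.S23

theorem result (N : ℕ) [NeZero N] : CuspForm.HasIntegralStructure N 2 :=
  hasIntegralStructure_of_finite N (Fermat.Agent.S22.result N 2 ∅)

end Fermat.Agent.S23
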