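import Fermat.Statements.S16
import Fermat.Agent.S16.Pairing
import Fermat.Agent.S16.Arith.Five
import Fermat.Agent.S16.TraceCases.Final
import Fermat.Agent.S16.U2Seven.Final
import Fermat.Agent.S16.UP.Main
import Fermat.Agent.S16.U5.Main
import Fermat.Agent.S16.SD.Final
import Fermat.Agent.S16.U3b.Main
import Fermat.Agent.S16.Eis.Lower
import Fermat.Agent.S16.Theta.ThetaForm
import Fermat.Agent.S16.Theta.LatticeTheta

set_option autoImplicit false
open ModularCurve CuspForm
open ModularCurve

namespace Fermat.Agent.S16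

theorem LOWER (p : ℕ) [Fact p.Prime] : Cong p (eisensteinNumerator p) :=
  Eis.lower p (fun h2 => Theta.exists_thetaForm_of_weilDataExists p Fact.out h2
    (fun L => Theta.exists_weilData L Fact.out))

theorem UPPER (p : ℕ) [Fact p.Prime] : ∀ M : ℕ, Cong p M → M ∣ eisensteinNumerator p := by
  intro M hM
  refine Arith.upper_of_cases' p ?_ (fun h => UP.noConstInt_self p (by omega))
    (fun _ h => TraceCases.noConstInt_three_one h) ?_
    (fun _ h => TraceCases.noConstInt_two_two h)
    (fun _ h => TraceCases.noConstInt_two_three_of_mod h)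
    (fun _ h => U2Seven.noConstInt_two_seven p h) M hM
  · -- U5
    intro _ l hl hl5 hlp
    have : Fact l.Prime := ⟨hl⟩
    exact U5.noConstInt_of_sd hl5 hlp (SD.swinnertonDyer_Zl l hl5)
  · -- U3b
    exact fun h5 h => U3b.noConstInt_three_two p h5 h

theorem result
    (p : ℕ) [Fact p.Prime] :
    Nat.card (↥(heckeLatticeAlgebra p ∅) ⧸
        Ideal.map ((latticeRestrictHom p ∅).toRingHom.comp (heckeEvalForms p 2))
          (eisensteinIdeal p)) =
      eisensteinNumerator p :=
  card_quotient_eq_of_cong p _ (LOWER p) (UPPER p)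

end Fermat.Agent.S16
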