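-- Statement S31 (row 30): the Galois representation of a Hecke–Galois datum of level N away from S
-- is unramified outside S.
-- GATE-J / J4-TATE assembly: `S31Top.s31_of_gates` (helper53) with J1's Kummer theorem at auxiliary
-- levels (`k18sAux`, general-exponent form `k18sPow_of_aux`) and J2's tower (`towerGateC`: lattice
-- `Lam N`, faithful Hecke action `latAct`, Kummer maps `thetaLat` at all `pⁿ`).
import Fermat.Statements.S31
import Fermat.Agent.GJ.Tate.S30Final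
import Fermat.Agent.GJ.Tate.TowerGateCInst
import Fermat.Agent.GJ.J1.K18sAllFinal

set_option autoImplicit false
variable {p : ℕ} {N : ℕ} [NeZero N] {S : Finset ℕ}
  {𝒪 : Type} [CommRing 𝒪] [IsDomain 𝒪] [IsDiscreteValuationRing 𝒪]
  [IsAdicComplete (IsLocalRing.maximalIdeal 𝒪) 𝒪]
  {θ : CuspForm.heckeAlgebra N 2 (↑S : Set ℕ) →+* IsLocalRing.ResidueField 𝒪}
  {T : Type} [CommRing T] [IsLocalRing T] [IsNoetherianRing T]
  [IsAdicComplete (IsLocalRing.maximalIdeal T) T] [Algebra 𝒪 T] [IsLocalHom (algebraMap 𝒪 T)]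
  [Module.Finite 𝒪 T] [Module.Free 𝒪 T]
open CuspForm CuspForm.HeckeGaloisRepDatum

namespace Fermat.Agent.S31

theorem result (hp : p.Prime)
    (hp𝒪 : (p : 𝒪) ∈ IsLocalRing.maximalIdeal 𝒪) (hpS : p ∈ S)
    (hNS : ∀ q : ℕ, q.Prime → q ∣ N → q ∈ S)
    (H : CuspForm.HeckeGaloisRepDatum N (↑S : Set ℕ) 𝒪 θ T)
    (q : ℕ) (hq : q.Prime) (hqS : q ∉ S) :
    H.ρ.IsUnramifiedAt q := by
  have : Fact p.Prime := ⟨hp⟩
  exact Fermat.Agent.GJ.Tate.S31Top.s31_of_gates
    (Fermat.Agent.GJ.Tate.S30Final.k18sPow_of_aux Fermat.Agent.GJ.J1.K18sAllFinal.k18sAux)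
    (Fermat.Agent.GJ.Tate.S30Top.towerGate_of_towerGateC
      (Fermat.Agent.GJ.Tate.TowerGateCInst.towerGateC p N S))
    hp hp𝒪 hpS hNS H q hq hqS

end Fermat.Agent.S31
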