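import Fermat.Statements.S57
import Fermat.Agent.S57.Patching

set_option autoImplicit false
open Algebra Algebra.PatchingLevel

namespace Fermat.Agent.S57

section

variable {𝒪 : Type} [CommRing 𝒪] {r : ℕ} {R : Type} [CommRing R] [Algebra 𝒪 R]
    {M : Type} [AddCommGroup M] [Module R M]
    (L : Algebra.PatchingLevel 𝒪 r R M ⊥)

/-- Coordinates of elements of `I • N` lie in `I`. -/
theorem coord_mem_of_mem_smul {ι : Type} (B : Module.Basis ι (MvPowerSeries (Fin r) 𝒪) L.N)
    (I : Ideal (MvPowerSeries (Fin r) 𝒪)) (j : ι) {x : L.N}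
    (hx : x ∈ I • (⊤ : Submodule (MvPowerSeries (Fin r) 𝒪) L.N)) : B.coord j x ∈ I := by
  refine Submodule.smul_induction_on hx (fun g hg n _ => ?_) (fun x y hx hy => ?_)
  · rw [map_smul, smul_eq_mul]
    exact I.mul_mem_right _ hg
  · rw [map_add]
    exact I.add_mem hx hy

theorem pi_sum_smul {ι : Type} (s : Finset ι) (f : ι → MvPowerSeries (Fin r) 𝒪) (v : ι → L.N) :
    L.π (∑ i ∈ s, f i • v i) = ∑ i ∈ s, L.ψ (f i) • L.π (v i) := by
  rw [map_sum]
  exact Finset.sum_congr rfl (fun i _ => L.π_smul _ _)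

end

theorem result
    {𝒪 : Type} [CommRing 𝒪] [IsDomain 𝒪] [IsDiscreteValuationRing 𝒪]
    {r : ℕ} {R : Type} [CommRing R] [Algebra 𝒪 R]
    {M : Type} [AddCommGroup M] [Module R M] [Nontrivial M]
    (L : Algebra.PatchingLevel 𝒪 r R M ⊥) :
    Module.Free R M ∧ Module.annihilator R M = ⊥ ∧
      RingHom.ker L.ψ = Ideal.span (Set.range fun i : Fin r => L.φ (MvPowerSeries.X i)) := by
  have hfree := free_N L
  have hfin := finite_N L
  have hnt := nontrivial_N L
  let B := Module.Free.chooseBasis (MvPowerSeries (Fin r) 𝒪) L.N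
  obtain ⟨j₀⟩ : Nonempty (Module.Free.ChooseBasisIndex (MvPowerSeries (Fin r) 𝒪) L.N) :=
    B.index_nonempty
  set I := Ideal.span (Set.range fun i : Fin r => L.φ (MvPowerSeries.X i)) with hI
  have hIker : I ≤ RingHom.ker L.ψ := by
    rw [hI, Ideal.span_le]
    rintro _ ⟨i, rfl⟩
    exact L.ψ_φ_X i
  -- the key property
  have key : ∀ (s : Finset (Module.Free.ChooseBasisIndex (MvPowerSeries (Fin r) 𝒪) L.N))
      (f : Module.Free.ChooseBasisIndex (MvPowerSeries (Fin r) 𝒪) L.N → MvPowerSeries (Fin r) 𝒪),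
      L.π (∑ i ∈ s, f i • B i) = 0 → ∀ i ∈ s, L.ψ (f i) = 0 := by
    intro s f h i hi
    have h1 := (L.ker_π _).mp h
    have h2 := coord_mem_of_mem_smul L B I i h1
    have h3 : B.coord i (∑ k ∈ s, f k • B k) = f i := by
      classical
      rw [map_sum]
      simp only [map_smul, Module.Basis.coord_apply, Module.Basis.repr_self, smul_eq_mul,
        Finsupp.single_apply, mul_ite, mul_one, mul_zero]
      rw [Finset.sum_ite_eq' s i]
      simp [hi]
    rw [h3] at h2
    exact hIker h2
  have key1 : ∀ f : MvPowerSeries (Fin r) 𝒪, (∀ m : M, L.ψ f • m = 0) → L.ψ f = 0 := by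
    intro f hf
    refine key {j₀} (fun _ => f) ?_ j₀ (Finset.mem_singleton_self _)
    rw [Finset.sum_singleton, L.π_smul]
    exact hf _
  refine ⟨?_, ?_, ?_⟩
  · -- freeness
    have hli : LinearIndependent R (fun i => L.π (B i)) := by
      rw [linearIndependent_iff']
      intro s g hg i hi
      have hsurj := L.ψ_surjective
      choose f hf using hsurj
      have := key s (fun k => f (g k)) (by
        rw [pi_sum_smul]
        simp only [hf]
        exact hg) i hi
      simpa [hf] using this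
    have hsp : ⊤ ≤ Submodule.span R (Set.range fun i => L.π (B i)) := by
      intro m _
      obtain ⟨x, rfl⟩ := L.π_surjective m
      rw [← B.sum_repr x, map_sum]
      refine Submodule.sum_mem _ (fun i _ => ?_)
      rw [L.π_smul]
      exact Submodule.smul_mem _ _ (Submodule.subset_span ⟨i, rfl⟩)
    exact Module.Free.of_basis (Module.Basis.mk hli hsp)
  · -- faithfulness
    rw [Submodule.eq_bot_iff]
    intro ρ hρ
    obtain ⟨f, rfl⟩ := L.ψ_surjective ρ
    exact key1 f (fun m => Module.mem_annihilator.mp hρ m)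
  · -- the kernel
    apply le_antisymm _ hIker
    intro f hf
    rw [RingHom.mem_ker] at hf
    have h1 : L.π (f • B j₀) = 0 := by rw [L.π_smul, hf, zero_smul]
    have h2 := coord_mem_of_mem_smul L B I j₀ ((L.ker_π _).mp h1)
    simpa using h2

end Fermat.Agent.S57
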