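import Fermat.Statements.S56
import Fermat.Agent.GP.Core.CoreInstAdBar
import Fermat.Agent.GP.GW.Euler.KeyLeavesHypFinal
import Fermat.Agent.GP.Flat.SSTop

set_option autoImplicit false
set_option autoImplicit false
open Polynomial IsLocalRing
open ResidualGaloisRep

namespace Fermat.Agent.S56

theorem result
    {𝒪 : Type} [CommRing 𝒪] [IsDomain 𝒪] [IsDiscreteValuationRing 𝒪]
    [IsAdicComplete (maximalIdeal 𝒪) 𝒪] [Finite (ResidueField 𝒪)]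
    (p : ℕ) [Fact p.Prime] (hp2 : p ≠ 2) (hp𝒪 : (p : 𝒪) ∈ maximalIdeal 𝒪)
    (ρbar : ResidualGaloisRep (ResidueField 𝒪))
    (habs : ρbar.IsAbsolutelyIrreducible)
    (hdet : (GaloisRepAdic.ofResidualGaloisRep ρbar).DetIsCyclotomic p)
    (hsplit : ∀ σ : AlgebraicClosure ℚ ≃ₐ[ℚ] AlgebraicClosure ℚ,
      ∃ α β : ResidueField 𝒪, LinearMap.charpoly (ρbar.ρ σ) = (X - C α) * (X - C β))
    (hTW : ∀ (K : Type) [Field K] [Algebra (ResidueField 𝒪) K]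
      (G : Subgroup (AlgebraicClosure ℚ ≃ₐ[ℚ] AlgebraicClosure ℚ)), G.index = 2 →
      ∀ V : Submodule K (ρbar.baseChange K).V,
        (∀ σ ∈ G, ∀ x ∈ V, (ρbar.baseChange K).ρ σ x ∈ V) → V = ⊥ ∨ V = ⊤)
    (S Smin : Finset ℕ) (hpSmin : p ∈ Smin) (hSmin : Smin ⊆ S) (hS : ∀ q ∈ S, q.Prime)
    (hmin : ∀ q : ℕ, q.Prime → q ≠ p → (q ∈ Smin ↔ ¬ ρbar.IsUnramifiedAt q)) :
    (∃ r : ℕ, ∀ n : ℕ, ∃ qv : Fin r → ℕ, Function.Injective qv ∧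
      (∀ i, (qv i).Prime ∧ qv i ∉ S ∧ p ^ (n + 1) ∣ qv i - 1) ∧
      (∀ i, ∀ P : ValuationSubring (AlgebraicClosure ℚ), P.LiesOverPrime (qv i) →
        ∀ φ : AlgebraicClosure ℚ ≃ₐ[ℚ] AlgebraicClosure ℚ, P.IsFrobeniusAt φ (qv i) →
          ∃ α β : ResidueField 𝒪, α ≠ β ∧ LinearMap.charpoly (ρbar.ρ φ) = (X - C α) * (X - C β)) ∧
      ∀ DQ : GaloisRep.DeformationRingData 𝒪 ρbar (fun _A _ _ _ ρ =>
          GaloisRep.strictOrdinaryCondition 𝒪 p (Smin ∪ Finset.univ.image qv) ρ ∧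
            ∀ q ∈ Smin, q.Prime → q ≠ p → ρ.IsUnipotentOnInertiaAt q),
        ∃ γ : MvPowerSeries (Fin r) 𝒪 →ₐ[𝒪] DQ.R, Function.Surjective γ) ∧
    (∃ r : ℕ, ∀ n : ℕ, ∃ qv : Fin r → ℕ, Function.Injective qv ∧
      (∀ i, (qv i).Prime ∧ qv i ∉ S ∧ p ^ (n + 1) ∣ qv i - 1) ∧
      (∀ i, ∀ P : ValuationSubring (AlgebraicClosure ℚ), P.LiesOverPrime (qv i) →
        ∀ φ : AlgebraicClosure ℚ ≃ₐ[ℚ] AlgebraicClosure ℚ, P.IsFrobeniusAt φ (qv i) →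
          ∃ α β : ResidueField 𝒪, α ≠ β ∧ LinearMap.charpoly (ρbar.ρ φ) = (X - C α) * (X - C β)) ∧
      ∀ DQ : GaloisRep.DeformationRingData 𝒪 ρbar (fun _A _ _ _ ρ =>
          GaloisRep.flatCondition 𝒪 p (Smin ∪ Finset.univ.image qv) ρ ∧
            ∀ q ∈ Smin, q.Prime → q ≠ p → ρ.IsUnipotentOnInertiaAt q),
        ∃ γ : MvPowerSeries (Fin r) 𝒪 →ₐ[𝒪] DQ.R, Function.Surjective γ) := by
  letI : Algebra (ZMod p) (ResidueField 𝒪) :=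
    Fermat.Agent.GP.Bridge.Ad0.algebraResidueField p hp𝒪
  have hS₀ : ∀ q : Nat.Primes, (q : ℕ) ∈ Smin →
      q ∈ Fermat.Agent.GP.Tan.SelmerFrozen.primesIn Smin :=
    fun q hq => Fermat.Agent.GP.Tan.SelmerFrozen.mem_primesIn.2 hq
  refine Fermat.Agent.GP.Core.CoreInstAdBar.s56_of_htate_flatloc p ρbar
    (Fermat.Agent.S53_helper35.stdBasisRes ρbar) hp2 hp𝒪 habs hdet hsplit hTW S Smin hpSmin hSmin
    hmin ?_ ?_
  · -- (R1) Tate's inequality for `(ad⁰ρ̄)^*(1)` above a level `Σ ⊇ Smin`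
    obtain ⟨Sig, hsub, ht⟩ :=
      Fermat.Agent.GP.GW.Euler.KeyLeavesHypFinal.exists_sigma_htate_adBar_final ρbar
        (Fermat.Agent.S53_helper35.stdBasisRes ρbar) hp2
        (Fermat.Agent.GP.Tan.SelmerFrozen.primesIn Smin)
        (hS₀ (ExtCitation.pPrime p) hpSmin)
        (Fermat.Agent.GP.Tan.SelmerAd0.unramified_outside_of_hmin p ρbar Smin hpSmin hmin
          (Fermat.Agent.GP.Tan.SelmerFrozen.primesIn Smin) hS₀) ∅
    exact ⟨Sig, fun q hq => hsub (Finset.mem_union_left _ (hS₀ q hq)), ht⟩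
  · -- (R3-FL) the flat local condition at `p`
    intro _ _
    exact Fermat.Agent.GP.Flat.SSTop.localCond_flat ρbar
      (Fermat.Agent.S53_helper35.stdBasisRes ρbar) p hp2 hdet hsplit
      ⟨Fermat.Agent.GP.Bridge.Ad0.emb_injective p _ 1,
        Fermat.Agent.GP.Bridge.Ad0.emb_surjective p _ 1,
        Fermat.Agent.GP.Bridge.Ad0.emb_ρ_one p _⟩ _
      (Fermat.Agent.GP.Tan.SelmerCard.natCard_eq_pow_finrank_zmod p (ResidueField 𝒪))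

end Fermat.Agent.S56
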