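-- Statement S18 (row 17): Fermat.Agent.S18.result, kernel-checked against the frozen
-- ModularCurve.FermatFrozen.S18 (theorem ModularCurve.eq_zero_of_reductionModL_eq_zero_of_nsmul_eq_zero).
-- GATE-J / J1: S18 from (K18s) at the auxiliary levels (helper40 OfSections) + the Kummer theorem for
-- the Gauss reduction datum of the modular function field (Layers A/B/C, K18Modular).
import Fermat.Statements.S18
import Fermat.Agent.GJ.S18.OfSections
import Fermat.Agent.GJ.J1.K18Modular

set_option autoImplicit false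
open ModularCurve

namespace Fermat.Agent.S18

theorem result (N : ℕ) [NeZero N] {ℓ : ℕ}
    [Fact ℓ.Prime] (hℓN : ¬ ℓ ∣ N) (A : ValuationSubring (AlgebraicClosure ℚ)) (hA : A.LiesOverPrime ℓ)
    (h : ModularCurve.ReductionInputsModL A N) (m : ℕ) (hm : ¬ ℓ ∣ m) (z : ModularCurve.JZero N)
    (hmz : m • z = 0) (hz : ModularCurve.reductionModL A N z = 0) :
    z = 0 :=
  Fermat.Agent.GJ.S18.Front.s18_of_forall_k18s N hℓN A h
    (fun N' _ h1 h2 h3 _ hm' =>
      Fermat.Agent.GJ.J1.K18Modular.k18s_aux N' A hA h1 h2 h3 hm')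
    m hm z hmz hz

end Fermat.Agent.S18
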