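-- Statement S17: J₀(N)(ℚ) is finitely generated (N prime ≥ 5).
-- GATE-R: weak Mordell–Weil at 3 (GR/W) + canonical height frame (GR/H) via TopInst.s17_of_leaves.
import Fermat.Statements.S17
import Fermat.Agent.GR.H.TopInst.LeavesAll
import Fermat.Agent.GR.W.Final

set_option autoImplicit false
open ModularCurve AlgebraicCurve
open ModularCurve ModularCurve.JZero

namespace Fermat.Agent.S17

theorem result (N : ℕ) [NeZero N] (hN : N.Prime) (hN5 : 5 ≤ N) :
    AddGroup.FG ↥(FixedPoints.addSubgroup ((AlgebraicClosure ℚ) ≃ₐ[ℚ] (AlgebraicClosure ℚ)) (JZero N)) :=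
  Fermat.Agent.GR.H.TopInst.s17_of_leaves (n := 3) (by norm_num)
    (Fermat.Agent.GR.W.Final.weakMW_three N) (Fermat.Agent.GR.H.TopInst.LeavesAll.leaves N)

end Fermat.Agent.S17
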