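-- Statement S14: `ExtVanishingCts p` for every prime `p ≥ 3`.
-- Proof: reduction to the Core Arithmetic Theorem (`Fermat/Agent/S14/Reduction.lean`) and the
-- Core Arithmetic Theorem itself (`Fermat/Agent/S14/CAT.lean`): unramified class field theory for
-- a cyclic degree `p` extension of `ℚ(ζ_p)` plus Stickelberger for the Jacobi sum.
import Fermat.Statements.S14
import Fermat.Agent.S14.Reduction
import Fermat.Agent.S14.CAT

set_option autoImplicit false
open ExtCitation

namespace Fermat.Agent.S14

theorem result {p : ℕ} [Fact p.Prime] (h3 : 3 ≤ p) :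
    ExtCitation.ExtVanishingCts p :=
  extVanishingCts_of_cat h3 (fun _ _ _ _ h => cat h)

end Fermat.Agent.S14
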