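import Fermat.Statements.S07
import Fermat.Prelude.Thm_ModularForm_sturm_bound_Gamma0
import Fermat.Prelude.Thm_CongruenceSubgroup_one_mem_strictPeriods_Gamma0
import Fermat.Agent.S07_helper93.Index

set_option autoImplicit false
open WeierstrassCurve WeierstrassCurve.Affine WeierstrassCurve.Affine.Point
open CuspForm ModularFormClass UpperHalfPlane
open ModularForm

namespace Fermat.Agent.S07

theorem result (f : CuspForm (CongruenceSubgroup.Gamma0 2) 2) : f = 0 := by
  have hF : (f : ModularForm (CongruenceSubgroup.Gamma0 2) 2) = 0 := by
    apply ModularForm.sturm_bound_Gamma0 2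
    intro n hn
    have hidx := Fermat.Agent.S07_helper93.Gamma0_two_index_le
    have hn0 : n = 0 := by
      have : ((2 : ℤ) * ((CongruenceSubgroup.Gamma0 2).index : ℤ)).toNat / 12 = 0 := by
        omega
      omega
    subst hn0
    exact CuspFormClass.qExpansion_coeff_zero f one_pos
      (CongruenceSubgroup.one_mem_strictPeriods_Gamma0 2)
  ext z
  have := DFunLike.congr_fun hF z
  simpa using this

end Fermat.Agent.S07
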