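-- Statement S15 (row 14): Mazur's key step — a rational point of prime order `p ∉ {2,3,5,7,13}` is
-- not in the zero component at a multiplicative prime `ℓ ≠ p`.
-- GATE-Z assembly: `GZ/Top/S15Sel.s15_of_selHyp_num` (every node but the Selmer hypothesis plugged)
-- + `GZ/LocP/BOB/LocpStarH30.selHyp` (the Selmer hypothesis of node (F), binder-free:
-- KUMLOC + SB + NUM + FL through `GZ/F/SelAsm`, and the local divisibility at `p`).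
import Fermat.Statements.S15
import Fermat.Agent.GZ.Top.S15Sel
import Fermat.Agent.GZ.LocP.BOB.LocpStarH30

set_option autoImplicit false
open WeierstrassCurve WeierstrassCurve.Affine
open WeierstrassCurve

namespace Fermat.Agent.S15

theorem result
    {p : ℕ} (hp : p.Prime) (hp' : p ∉ ({2, 3, 5, 7, 13} : Finset ℕ))
    (W : WeierstrassCurve ℤ) (hΔ : W.Δ ≠ 0)
    (Q : ((W.map (Int.castRingHom ℚ))⁄(AlgebraicClosure ℚ)).Point)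
    (hQfix : ∀ σ : AlgebraicClosure ℚ ≃ₐ[ℚ] AlgebraicClosure ℚ, σ • Q = Q)
    (hQord : addOrderOf Q = p)
    (h2Δ : (2 : ℤ) ∣ W.Δ) (h2c₄ : ¬ (2 : ℤ) ∣ W.c₄)
    (h2 : ∀ A : ValuationSubring (AlgebraicClosure ℚ), A.LiesOverPrime 2 → ¬ W.InZeroComponentAt A Q)
    (h3Δ : (3 : ℤ) ∣ W.Δ) (h3c₄ : ¬ (3 : ℤ) ∣ W.c₄)
    (h3 : ∀ A : ValuationSubring (AlgebraicClosure ℚ), A.LiesOverPrime 3 → ¬ W.InZeroComponentAt A Q)
    {ℓ : ℕ} (hℓ : ℓ.Prime) (hℓp : ℓ ≠ p) (hℓΔ : (ℓ : ℤ) ∣ W.Δ) (hℓc₄ : ¬ (ℓ : ℤ) ∣ W.c₄)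
    (A : ValuationSubring (AlgebraicClosure ℚ)) (hA : A.LiesOverPrime ℓ) :
    ¬ W.InZeroComponentAt A Q :=
  Fermat.Agent.GZ.Top.Sel.s15_of_selHyp_num hp hp' W hΔ Q hQfix hQord h2Δ h2c₄ h2 h3Δ h3c₄ h3
    hℓ hℓp hℓΔ hℓc₄ A hA
    (fun r hr _ hrp _ => Fermat.Agent.GZ.LocP.BOB.LocpStarH30.selHyp p hp
      (Fermat.Agent.GZ.Top.Sel.five_le_of_notMem hp hp') _ r hr hrp)

end Fermat.Agent.S15
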