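-- Statement S24: genus of the function field of X₀(N) over ℚ̄ equals the genus formula.
-- Final assembly (helper31, T24): all pieces are in Fermat/Agent/S24/ and Fermat/Agent/S24_helper*/.
import Fermat.Statements.S24
import Fermat.Agent.S24.AsmCounts
import Fermat.Agent.S24.InteriorCounts
import Fermat.Agent.S24.CuspFinal

set_option autoImplicit false
open ModularCurve

namespace Fermat.Agent.S24

theorem result (N : ℕ) [NeZero N]
    [AlgebraicCurve.HasCanonicalDivisor (K := AlgebraicClosure ℚ) (F := ↥(ModularCurve.modularFunctionFieldBar N))] :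
    (AlgebraicCurve.genus (AlgebraicClosure ℚ) ↥(ModularCurve.modularFunctionFieldBar N) : ℚ)
      = ModularCurve.genusFormula N :=
  Asm.genus_of_m9_counts N (Fermat.Agent.S24_helper62.m9 N) (InteriorCounts.hgen N)
    (InteriorCounts.h0 N) (InteriorCounts.h1728 N) (CuspFinal.hinfty N)

end Fermat.Agent.S24
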