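-- Statement S27 (row 26): `|Pic⁰(F)[ℓ^k]| = ℓ^(2 g k)` for a curve over an algebraically closed
-- field of characteristic zero.
-- GATE-J27 assembly (helper27, gate lead): `GJ27/Top.lean : s27_of_binders` applied to
--   SPEC    `LSH.specStmt_of_chartStmt frontStmt LSH.chartStmt`  (good reduction to an algebraic
--           closure of a finite field: B0 helper94/helper43, B1 helper62, B2 helper50, B3 helper82
--           helper99 helper27, B4 helper9, B5 helper64),
--   TORSISO `torsIsoStmt`  (B6 helper38, B7 helper16),
--   COUNT   `Count.countStmt`  (A0 helper3, A1 helper56, A2 helper94, A3 helper90 helper43 helper70,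
--           A4 helper1 helper47 helper99, A5 helper96, A6 helper63 helper68 helper3, A7 helper27,
--           A8 helper47).
import Fermat.Statements.S27
import Fermat.Agent.GJ27.Top
import Fermat.Agent.GJ27.TorsIsoFinal
import Fermat.Agent.GJ27.FrontFinal
import Fermat.Agent.GJ27.LSH.ChartStmt
import Fermat.Agent.GJ27.Count.Final

set_option autoImplicit false
set_option autoImplicit false
open AlgebraicCurve
open AlgebraicCurve AlgebraicCurve.Pic0

namespace Fermat.Agent.S27

theorem result
    (K F : Type*) [Field K] [Field F] [Algebra K F] [IsAlgClosed K] [CharZero K]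
    [IsCurveOver K F] [Algebra.EssFiniteType K F]
    (ℓ : ℕ) [Fact ℓ.Prime] (k : ℕ) :
    Nat.card (Pic0.torsion K F (ℓ ^ k)) = ℓ ^ (2 * genusFF K F * k) :=
  Fermat.Agent.GJ27.s27_of_binders
    (Fermat.Agent.GJ27.LSH.specStmt_of_chartStmt Fermat.Agent.GJ27.frontStmt
      Fermat.Agent.GJ27.LSH.chartStmt)
    Fermat.Agent.GJ27.torsIsoStmt Fermat.Agent.GJ27.Count.countStmt K F ℓ k

end Fermat.Agent.S27
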