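import Fermat.Statements.S28
import Fermat.Agent.S28.FinalGlue
import Fermat.Agent.S28.DatumInst
import Fermat.Agent.S28.CuspCore

set_option autoImplicit false
open AlgebraicGeometry CategoryTheory CategoryTheory.Limits ModularCurve ModularCurve.IgusaScheme
noncomputable section
set_option autoImplicit false
open ModularCurve ModularCurve.IgusaScheme

namespace Fermat.Agent.S28

set_option maxHeartbeats 4000000 in
set_option synthInstance.maxHeartbeats 400000 in
theorem result
    (N : ℕ) [NeZero N] (ℓ : ℕ) [Fact ℓ.Prime] (hℓN : ¬ ℓ ∣ N)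
    (K : Type) [Field K] [CharP K ℓ] [Algebra ↥(GaloisRep.ratLocalizedAt ℓ) K] :
    IsIntegral ↑(pullback (igusaTo N ℓ)
      (Spec.map (CommRingCat.ofHom (algebraMap ↥(GaloisRep.ratLocalizedAt ℓ) K)))) := by
  have hirr := irreducible_ell_cycO N ℓ hℓN
  have hFin : ChartReduction.CoreFin N ↥(cycK N) ↥(cycO N ℓ) ((ℓ : ℕ) : ↥(cycO N ℓ)) :=
    FinalGlue.coreAt_of_div' hirr fun x hx hint hred =>
      CuspDatum.coreFin (cycDatum N ℓ hℓN) hirr x hx hint hred
  have hInf : ChartReduction.CoreInf N ↥(cycK N) ↥(cycO N ℓ) ((ℓ : ℕ) : ↥(cycO N ℓ)) :=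
    FinalGlue.coreAt_of_div' hirr fun x hx hint hred =>
      CuspDatum.coreInf (cycDatum N ℓ hℓN) hirr x hx hint hred
  exact FinalGlue.isIntegral_pullback_of_cores N ℓ hFin hInf K

end Fermat.Agent.S28
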