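-- Statement S37 (row 36): Fermat.Agent.S37.result, kernel-checked against the frozen
-- ModularCurve.FermatFrozen.S37 (theorem ModularCurve.specializationExists_JZero).
-- GATE-J / S37-PATH (lead helper75): Eichler–Shimura congruence relation in the packaged form
-- `SpecializationExists`:  S18 (J1) + the level package (L-space place reduction map, uniqueness;
-- `GJ/S37/LSpaceGateProof.lean`) + the pull-back package (`GJ/S37/PullPackageInst.lean`), assembled by
-- `GJ/S37/Final.lean` (auxiliary levels lcm(3,N) / lcm(2,N) at ℓ = 2, 3).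
import Fermat.Statements.S37
import Fermat.Agent.S18
import Fermat.Agent.GJ.S37.Final
import Fermat.Agent.GJ.S37.LSpaceGateProof
import Fermat.Agent.GJ.S37.PullPackageInst

set_option autoImplicit false
open ModularCurve

namespace Fermat.Agent.S37

theorem result (N p : ℕ) [NeZero N] (hcomm : ModularCurve.HeckeOperatorsCommuteBar N) : letI := ModularCurve.heckeModuleBar N; ∀ (_ : SMulCommClass (AlgebraicClosure ℚ ≃ₐ[ℚ] AlgebraicClosure ℚ) ModularCurve.HeckeAlg (ModularCurve.JZero N)), ModularCurve.SpecializationExists (K := ℚ) (L := AlgebraicClosure ℚ) N p (ModularCurve.JZero N) :=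
  Fermat.Agent.GJ.S37Final.s37_final
    (fun N _ _ _ hℓN A hA h m hm z hmz hz => Fermat.Agent.S18.result N hℓN A hA h m hm z hmz hz)
    Fermat.Agent.GJ.S37LSpaceGate.levelPackage
    Fermat.Agent.GJ.S37PullPackageInst.pullPackage N p hcomm

end Fermat.Agent.S37
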