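-- Statement S42 (row 40): EigenformResidualAttachmentAt M for every level M > 0.
-- From S29 by helper35's bookkeeping `s42_of_s29`.
import Fermat.Statements.S42
import Fermat.Agent.S29
import Fermat.Agent.GJ.J4.S42Asm

set_option autoImplicit false
open FreyPackage

namespace Fermat.Agent.S42

theorem result (P : FreyPackage) :
    ∀ M : ℕ, 0 < M → P.EigenformResidualAttachmentAt M :=
  Fermat.Agent.GJ.J4.S42Asm.s42_of_s29
    (fun hg _ hp _ _ _ φ => Fermat.Agent.S29.result hg hp φ) P

end Fermat.Agent.S42
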