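-- S43 (GATE-B): level lowering at an odd prime q ≠ p for the Frey curve at conductor level.
-- result := S43OfLevels.s43_of_levelStmts (flat branch: ProviderFlat.FlatGroups.flatGroups)
--   (p-new branch: ProviderNew.NewGroups.newGroups).  Statement byte-identical to the template.
import Fermat.Statements.S43
import Fermat.Agent.GB.Top.S43OfLevels
import Fermat.Agent.GB.B9.ProviderFlat.FlatGroups
import Fermat.Agent.GB.B9.ProviderNew.NewGroups

set_option autoImplicit false
open WeierstrassCurve WeierstrassCurve.Affine WeierstrassCurve.Affine.Point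
open CuspForm ModularFormClass UpperHalfPlane
open FreyPackage

namespace Fermat.Agent.S43

theorem result (P : FreyPackage) {N q : ℕ} (hcond : P.IsConductorLevel N) (hq : q.Prime) (hq2 : q ≠ 2) (hqp : q ≠ P.p) (hqN : q ∣ N) (hirr : GaloisRepIsIrreducible (K := AlgebraicClosure ℚ) ℚ P.freyCurve P.p) (hmod : P.ModularRepOfLevel N) (hunr : P.GaloisRepUnramifiedAt q) : ∃ M : ℕ, M ∣ N ∧ ¬ q ∣ M ∧ P.ModularRepOfLevel M :=
  Fermat.Agent.GB.Top.S43OfLevels.s43_of_levelStmts
    (Fermat.Agent.GB.B9.ProviderFlat.LowerQ.levelStmt_of_groups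
      Fermat.Agent.GB.B9.ProviderFlat.FlatGroups.flatGroups)
    (Fermat.Agent.GB.B9.ProviderNew.LowerQ.levelStmtNew_of_groups
      Fermat.Agent.GB.B9.ProviderNew.NewGroups.newGroups)
    P hcond hq hq2 hqp hqN hirr hmod hunr

end Fermat.Agent.S43
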