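-- S44 (row 38): level lowering at `p` for the Frey curve at its conductor level
-- (`FreyPackage.level_lowering_at_p_of_conductorLevel`), GATE-F.
--
-- Wiring (all under `Fermat/Agent/GF/`):
--   * `GF/KCover/NodeMod/NlAllOfHyps.nlAll_of_hyps` (helper62) : the modular node lemma at every
--     finite place of a level `L` with `4 ∣ L`, from the `I_A`-lift relation and the
--     Artin–Schreier + Krull input `ASK`;
--   * `GF/Top/Integrate7.s44_of_perPlace` (helper61) : the final instantiation at the level
--     `M' p · 2 · 2` (`upFour T`), the descent to the level `M' p` (helper47 `AuxTop`), the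
--     assembly (F2) + (EIS) ⟹ `trop_zero` (helper31 / helper62 `F2PlugK`), and the TOP chain
--     `trop_zero` ⟹ frozen S44 (`Provider44T`, `ClauseF`).
import Fermat.Statements.S44
import Fermat.Agent.GF.Top.Integrate7
import Fermat.Agent.GF.KCover.NodeMod.NlAllOfHyps

set_option autoImplicit false
open WeierstrassCurve WeierstrassCurve.Affine WeierstrassCurve.Affine.Point
open CuspForm ModularFormClass UpperHalfPlane
open FreyPackage

namespace Fermat.Agent.S44

theorem result (P : FreyPackage) {N : ℕ} (hcond : P.IsConductorLevel N) (hpN : P.p ∣ N) (hirr : GaloisRepIsIrreducible (K := AlgebraicClosure ℚ) ℚ P.freyCurve P.p) (hmod : P.ModularRepOfLevel N) : ∃ M : ℕ, M ∣ N ∧ ¬ P.p ∣ M ∧ P.ModularRepOfLevel M :=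
  Fermat.Agent.GF.Top.Integrate7.s44_of_perPlace
    (fun h hA hp5 h4 T hσ hASK =>
      Fermat.Agent.GF.KCover.NodeMod.NlAllOfHyps.nlAll_of_hyps h hA hp5 h4 T hσ hASK)
    P hcond hpN hirr hmod

end Fermat.Agent.S44
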