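-- Statement S51 (row 45): a semistable elliptic curve over ℚ has irreducible mod-3 or mod-5
-- representation.  Assembly: Parts A/B/D (`result_of_C`, Fermat/Agent/S51/Main.lean) fed with
-- Part C (`rational_points_15a`, Fermat/Agent/S51/Descent15.lean).
import Fermat.Statements.S51
import Fermat.Agent.S51.Main
import Fermat.Agent.S51.Descent15

set_option autoImplicit false
open WeierstrassCurve WeierstrassCurve.Affine WeierstrassCurve.Affine.Point
open CuspForm ModularFormClass UpperHalfPlane
open WeierstrassCurve

namespace Fermat.Agent.S51

theorem result (W : WeierstrassCurve ℤ) (hΔ : W.Δ ≠ 0) (hW : W.IsSemistableModel) : W.ModRepIsIrreducible 3 ∨ W.ModRepIsIrreducible 5 :=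
  result_of_C rational_points_15a W hΔ hW

end Fermat.Agent.S51
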