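-- Statement S52 (row 46): the 3-5 switch. GATE-Q assembly: T1 (G35/T1.lean, Q1-Q4) + T2 (G35/Irr3/OfT1.lean, Q5-Q6).
-- The statement below is byte-identical to the frozen statement WeierstrassCurve.FermatFrozen.S52.
import Fermat.Statements.S52
import Fermat.Agent.G35.T1
import Fermat.Agent.G35.Irr3.OfT1

set_option autoImplicit false
open WeierstrassCurve WeierstrassCurve.Affine WeierstrassCurve.Affine.Point
open CuspForm ModularFormClass UpperHalfPlane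
open WeierstrassCurve

namespace Fermat.Agent.S52

theorem result (W : WeierstrassCurve ℤ) (hΔ : W.Δ ≠ 0) (hW : W.IsSemistableModel) (h5 : W.ModRepIsIrreducible 5) : ∃ W' : WeierstrassCurve ℤ, W'.Δ ≠ 0 ∧ W'.IsSemistableModel ∧ W'.ModRepIsIrreducible 3 ∧ ∀ ℓ : ℕ, ℓ.Prime → W.IsGoodPrimeFor ℓ → W'.IsGoodPrimeFor ℓ → ℓ ≠ 5 → (5 : ℤ) ∣ (W'.apOfModel ℓ - W.apOfModel ℓ) := by
  refine Fermat.Agent.G35.Irr3.OfT1.s52_of_contract (fun W hΔ hW => ?_) W hΔ hW h5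
  obtain ⟨ζ, w0, ι, hζ, -, -, hι0, hli, hfam, I2, I3, I4, cong⟩ :=
    Fermat.Agent.G35.T1.exists_family W hΔ hW
  exact ⟨ζ, w0, ι, hζ, hι0, hli, hfam, I2, I3, I4, cong⟩

end Fermat.Agent.S52
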