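-- S55 (Poitou–Tate duality of the Tate–Shafarevich groups): GATE-C assembly.
-- `s55_of_NC_cls` (helper19, GC/C0/S55OfCls) applied to
--   * `(NC)_ℚ`  = `NCQAsm.hNC_of_ncFin` (helper52 + helper83 + helper69 + helper3 + helper1 + helper14 + helper55),
--   * `ClsOnto` = `ClsOntoProof.clsOnto_final` (helper74), `ClsDiv` = `ClsDivProof.clsDiv_final` (helper97),
--     `ClsCyc`  = `ClsCycProof.clsCyc_final` (helper12).
import Fermat.Statements.S55
import Fermat.Agent.GC.C0.S55OfCls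
import Fermat.Agent.GC.Global.WRec.NCQAssemble
import Fermat.Agent.GC.Global.Limit.ClsCycProof
import Fermat.Agent.GC.Global.Limit.ClsDivFinal
import Fermat.Agent.GC.Global.Limit.ClsOntoProof

set_option autoImplicit false
set_option autoImplicit false
open CategoryTheory Module groupCohomology ExtCitation
open groupCohomology

namespace Fermat.Agent.S55

theorem result
    {p : ℕ} [Fact p.Prime] (hp2 : p ≠ 2) (S : Finset Nat.Primes) (hpS : pPrime p ∈ S)
    (M : Rep (ZMod p) (AlgebraicClosure ℚ ≃ₐ[ℚ] AlgebraicClosure ℚ))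
    [FiniteDimensional (ZMod p) M]
    (hsm : ∀ m : M, ∃ F : IntermediateField ℚ (AlgebraicClosure ℚ), FiniteDimensional ℚ F ∧
      ∀ s ∈ F.fixingSubgroup, M.ρ s m = m)
    (hMur : ∀ q : Nat.Primes, q ∉ S → ∀ A : ValuationSubring (AlgebraicClosure ℚ),
      A.LiesOverPrime (q : ℕ) → ∀ g ∈ A.inertiaSubgroupIn ℚ, M.ρ g = 1) :
    ∃ B : sha₁ S (M.dualTwist (cycloChar p)) →ₗ[ZMod p] sha₂ S M →ₗ[ZMod p] ZMod p,
      (∀ y, (∀ x, B y x = 0) → y = 0) ∧ (∀ x, (∀ y, B y x = 0) → x = 0) := by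
  have hp : p.Prime := Fact.out
  refine Fermat.Agent.GC.C0.s55_of_NC_cls hp2 S hpS ?_ ?_ M hsm hMur
  · intro _
    exact Fermat.Agent.GC.Global.WRec.NCQAsm.hNC_of_ncFin p hp2 S hpS
  · intro K _ hK hχ
    obtain ⟨ζ, hζ⟩ := Fermat.Agent.GJ.CycChar.exists_primitiveRoot (p := p)
    have hζK : ζ ∈ K :=
      Fermat.Agent.GC.C0.primitiveRoot_mem_of_cycloChar_eq_one K (fun g hg => hχ ⟨g, hg⟩) hζ
    refine ⟨?_, ?_, ?_⟩
    · exact Fermat.Agent.GC.Global.Limit.ClsOntoProof.clsOnto_final hp hp2 hpS hζ hζK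
    · exact Fermat.Agent.GC.Global.Limit.ClsDivProof.clsDiv_final hp hp2 hpS hζ hζK
    · exact Fermat.Agent.GC.Global.Limit.ClsCycProof.clsCyc_final hp hp2 hpS hK hζ hζK

end Fermat.Agent.S55
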